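import Fermat.Prelude.Def_FLTPrelim_FreyPackage
import Fermat.Prelude.Def_FLTPrelim_Modularity
import Mathlib.Tactic.LinearCombination
import Mathlib.Tactic.FieldSimp
import Mathlib.Algebra.Order.Ring.Int
import Mathlib.RingTheory.Int.Basic

/-!
# Basic invariants of the integral Frey curve

For a Frey package `P` with `A = a ^ p`, `B = b ^ p`, `C = c ^ p`:
`Δ * 2 ^ 8 = (a b c) ^ (2 p)`, `c₄ = A ^ 2 + A B + B ^ 2`, and the integral model is semistable.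
-/

set_option autoImplicit false

namespace Fermat.Agent.Endgame

open WeierstrassCurve

variable (P : FreyPackage)

theorem two_dvd_b : (2 : ℤ) ∣ P.b :=
  (ZMod.intCast_zmod_eq_zero_iff_dvd P.b 2).1 P.hb2

theorem four_dvd_a_sub_three : (4 : ℤ) ∣ P.a - 3 :=
  (ZMod.intCast_zmod_eq_zero_iff_dvd (P.a - 3) 4).1 (by push_cast; rw [P.ha4]; ring)

theorem not_two_dvd_a : ¬ (2 : ℤ) ∣ P.a := by
  have := four_dvd_a_sub_three P
  omega

theorem four_dvd_a_pow_sub_three : (4 : ℤ) ∣ P.a ^ P.p - 3 := by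
  refine (ZMod.intCast_zmod_eq_zero_iff_dvd (P.a ^ P.p - 3) 4).1 ?_
  push_cast
  rw [P.ha4]
  obtain ⟨k, hk⟩ := P.hp_odd
  rw [hk, pow_succ, pow_mul, show (3 : ZMod 4) ^ 2 = 1 by decide, one_pow, one_mul, sub_self]

theorem thirtytwo_dvd_b_pow : (32 : ℤ) ∣ P.b ^ P.p :=
  (pow_dvd_pow_of_dvd (two_dvd_b P) 5 : (2 : ℤ) ^ 5 ∣ P.b ^ 5).trans
    (pow_dvd_pow P.b P.hp5)

theorem sixteen_dvd_b_pow : (16 : ℤ) ∣ P.b ^ P.p :=
  dvd_trans (by norm_num) (thirtytwo_dvd_b_pow P)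

theorem four_dvd_a₂_num : (4 : ℤ) ∣ P.b ^ P.p - 1 - P.a ^ P.p := by
  have h1 := four_dvd_a_pow_sub_three P
  have h2 := sixteen_dvd_b_pow P
  omega

theorem sixteen_dvd_a₄_num : (16 : ℤ) ∣ -(P.a ^ P.p) * (P.b ^ P.p) :=
  dvd_mul_of_dvd_right (sixteen_dvd_b_pow P) _

theorem freyCurveInt_a₁ : P.freyCurveInt.a₁ = 1 := rfl

theorem freyCurveInt_a₃ : P.freyCurveInt.a₃ = 0 := rfl

theorem freyCurveInt_a₆ : P.freyCurveInt.a₆ = 0 := rfl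

theorem four_mul_a₂ : 4 * P.freyCurveInt.a₂ = P.b ^ P.p - 1 - P.a ^ P.p :=
  Int.mul_ediv_cancel' (four_dvd_a₂_num P)

theorem sixteen_mul_a₄ : 16 * P.freyCurveInt.a₄ = -(P.a ^ P.p) * (P.b ^ P.p) :=
  Int.mul_ediv_cancel' (sixteen_dvd_a₄_num P)

theorem freyCurveInt_map : P.freyCurveInt.map (Int.castRingHom ℚ) = P.freyCurve := by
  ext <;> simp only [WeierstrassCurve.map, FreyPackage.freyCurveInt, FreyPackage.freyCurve,
    Int.coe_castRingHom, Int.cast_one, Int.cast_zero]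
  · rw [Int.cast_div (four_dvd_a₂_num P) (by norm_num)]
    push_cast
    rfl
  · rw [Int.cast_div (sixteen_dvd_a₄_num P) (by norm_num)]
    push_cast
    rfl

theorem isIntegralModelOf_freyCurve : P.freyCurveInt.IsIntegralModelOf P.freyCurve :=
  ⟨1, by rw [one_smul, freyCurveInt_map]⟩

theorem freyCurveInt_c₄ : P.freyCurveInt.c₄
    = (P.a ^ P.p) ^ 2 + P.a ^ P.p * P.b ^ P.p + (P.b ^ P.p) ^ 2 := by
  simp only [WeierstrassCurve.c₄, WeierstrassCurve.b₂, WeierstrassCurve.b₄, freyCurveInt_a₁,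
    freyCurveInt_a₃]
  have h2 := four_mul_a₂ P
  have h4 := sixteen_mul_a₄ P
  linear_combination (4 * P.freyCurveInt.a₂ + P.b ^ P.p - P.a ^ P.p + 1) * h2 - 3 * h4

theorem freyCurveInt_b₈ : P.freyCurveInt.b₈ = -P.freyCurveInt.a₄ ^ 2 := by
  simp only [WeierstrassCurve.b₈, freyCurveInt_a₁, freyCurveInt_a₃, freyCurveInt_a₆]
  ring

theorem freyCurveInt_Δ : P.freyCurveInt.Δ * 2 ^ 8 = (P.a * P.b * P.c) ^ (2 * P.p) := by
  have h2 := four_mul_a₂ P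
  have h4 := sixteen_mul_a₄ P
  have hb2 : P.freyCurveInt.b₂ = P.b ^ P.p - P.a ^ P.p := by
    simp only [WeierstrassCurve.b₂, freyCurveInt_a₁]
    linear_combination h2
  have hb4 : P.freyCurveInt.b₄ = 2 * P.freyCurveInt.a₄ := by
    simp only [WeierstrassCurve.b₄, freyCurveInt_a₁, freyCurveInt_a₃]
    ring
  have hb6 : P.freyCurveInt.b₆ = 0 := by
    simp only [WeierstrassCurve.b₆, freyCurveInt_a₃, freyCurveInt_a₆]
    ring
  have hrhs : (P.a * P.b * P.c) ^ (2 * P.p)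
      = (P.a ^ P.p) ^ 2 * (P.b ^ P.p) ^ 2 * (P.a ^ P.p + P.b ^ P.p) ^ 2 := by
    rw [P.hFLT, pow_mul', mul_pow, mul_pow, mul_pow, mul_pow]
  rw [hrhs, show P.freyCurveInt.Δ = P.freyCurveInt.a₄ ^ 2 *
      ((P.b ^ P.p - P.a ^ P.p) ^ 2 - 64 * P.freyCurveInt.a₄) by
    rw [WeierstrassCurve.Δ, hb4, hb6, hb2, freyCurveInt_b₈]; ring]
  have h256 : P.freyCurveInt.a₄ ^ 2 * 2 ^ 8 = (P.a ^ P.p) ^ 2 * (P.b ^ P.p) ^ 2 := by
    linear_combination (16 * P.freyCurveInt.a₄ - P.a ^ P.p * P.b ^ P.p) * h4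
  linear_combination ((P.b ^ P.p - P.a ^ P.p) ^ 2 - 64 * P.freyCurveInt.a₄) * h256
    + (-4 * ((P.a ^ P.p) ^ 2 * (P.b ^ P.p) ^ 2)) * h4

theorem freyCurveInt_Δ_ne_zero : P.freyCurveInt.Δ ≠ 0 := by
  intro h
  have h' := freyCurveInt_Δ P
  rw [h, zero_mul] at h'
  exact pow_ne_zero _ P.habc0 h'.symm

theorem freyCurve_Δ : P.freyCurve.Δ = ((P.a * P.b * P.c : ℤ) : ℚ) ^ (2 * P.p) / 2 ^ 8 := by
  rw [← freyCurveInt_map P, WeierstrassCurve.map_Δ, eq_div_iff (by norm_num : (2 : ℚ) ^ 8 ≠ 0)]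
  have h := congrArg (fun x : ℤ => (x : ℚ)) (freyCurveInt_Δ P)
  push_cast at h ⊢
  exact h

theorem freyCurve_Δ_ne_zero : P.freyCurve.Δ ≠ 0 := by
  rw [← freyCurveInt_map P, WeierstrassCurve.map_Δ]
  simpa using freyCurveInt_Δ_ne_zero P

theorem freyCurve_c₄ : P.freyCurve.c₄
    = ((P.a : ℚ) ^ P.p) ^ 2 + (P.a : ℚ) ^ P.p * (P.b : ℚ) ^ P.p + ((P.b : ℚ) ^ P.p) ^ 2 := by
  rw [← freyCurveInt_map P, WeierstrassCurve.map_c₄, freyCurveInt_c₄]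
  simp

theorem freyCurve_isElliptic : P.freyCurve.IsElliptic :=
  ⟨isUnit_iff_ne_zero.2 (freyCurve_Δ_ne_zero P)⟩

theorem prime_dvd_abc_of_dvd_Δ {q : ℕ} (hq : q.Prime) (h : (q : ℤ) ∣ P.freyCurveInt.Δ) :
    (q : ℤ) ∣ P.a * P.b * P.c := by
  have h' : (q : ℤ) ∣ (P.a * P.b * P.c) ^ (2 * P.p) := by
    rw [← freyCurveInt_Δ]
    exact dvd_mul_of_dvd_left h _
  exact (Nat.prime_iff_prime_int.1 hq).dvd_of_dvd_pow h'

theorem two_pow_ten_dvd_abc_pow : (2 : ℤ) ^ 10 ∣ (P.a * P.b * P.c) ^ (2 * P.p) :=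
  (pow_dvd_pow_of_dvd P.two_dvd_abc 10).trans
    (pow_dvd_pow _ (by have := P.hp5; omega))

theorem two_dvd_Δ : (2 : ℤ) ∣ P.freyCurveInt.Δ := by
  have h := two_pow_ten_dvd_abc_pow P
  rw [← freyCurveInt_Δ P] at h
  omega

theorem prime_dvd_Δ_iff {q : ℕ} (hq : q.Prime) :
    (q : ℤ) ∣ P.freyCurveInt.Δ ↔ (q : ℤ) ∣ P.a * P.b * P.c := by
  refine ⟨prime_dvd_abc_of_dvd_Δ P hq, fun h => ?_⟩
  rcases eq_or_ne q 2 with rfl | hq2
  · exact two_dvd_Δ P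
  · have h' : (q : ℤ) ∣ P.freyCurveInt.Δ * 2 ^ 8 := by
      rw [freyCurveInt_Δ]
      exact dvd_pow h (by have := P.hp5; omega)
    refine ((Nat.prime_iff_prime_int.1 hq).dvd_or_dvd h').resolve_right fun h2 => hq2 ?_
    have h3 : q ∣ 2 := by exact_mod_cast (Nat.prime_iff_prime_int.1 hq).dvd_of_dvd_pow h2
    exact (Nat.prime_dvd_prime_iff_eq hq Nat.prime_two).1 h3

theorem isGoodPrimeFor_iff {q : ℕ} (hq : q.Prime) :
    P.freyCurveInt.IsGoodPrimeFor q ↔ ¬ (q : ℤ) ∣ P.a * P.b * P.c :=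
  not_congr (prime_dvd_Δ_iff P hq)

theorem isCoprime_a_b : IsCoprime P.a P.b :=
  (gcd_isUnit_iff P.a P.b).1 (by rw [P.hgcdab]; exact isUnit_one)

theorem isCoprime_a_c : IsCoprime P.a P.c :=
  (gcd_isUnit_iff P.a P.c).1 (by rw [P.hgcdac]; exact isUnit_one)

theorem isCoprime_b_c : IsCoprime P.b P.c :=
  (gcd_isUnit_iff P.b P.c).1 (by rw [P.hgcdbc]; exact isUnit_one)

theorem prime_not_dvd_c₄ {q : ℕ} (hq : q.Prime) (h : (q : ℤ) ∣ P.a * P.b * P.c) :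
    ¬ (q : ℤ) ∣ P.freyCurveInt.c₄ := by
  have hq' : Prime (q : ℤ) := Nat.prime_iff_prime_int.1 hq
  rw [freyCurveInt_c₄]
  intro h4
  rcases hq'.dvd_or_dvd h with h | hc
  · rcases hq'.dvd_or_dvd h with ha | hb
    · have hA : (q : ℤ) ∣ P.a ^ P.p := dvd_pow ha P.hp0
      have hB : (q : ℤ) ∣ (P.b ^ P.p) ^ 2 :=
        (dvd_add_right ((dvd_pow hA two_ne_zero).add (hA.mul_right _))).1 h4
      exact hq'.not_isUnit ((isCoprime_a_b P).isUnit_of_dvd' ha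
        (hq'.dvd_of_dvd_pow (hq'.dvd_of_dvd_pow hB)))
    · have hB : (q : ℤ) ∣ P.b ^ P.p := dvd_pow hb P.hp0
      have hA : (q : ℤ) ∣ (P.a ^ P.p) ^ 2 := by
        rw [add_assoc] at h4
        exact (dvd_add_left ((hB.mul_left _).add (dvd_pow hB two_ne_zero))).1 h4
      exact hq'.not_isUnit ((isCoprime_a_b P).isUnit_of_dvd'
        (hq'.dvd_of_dvd_pow (hq'.dvd_of_dvd_pow hA)) hb)
  · have hC : (q : ℤ) ∣ P.a ^ P.p + P.b ^ P.p := P.hFLT ▸ dvd_pow hc P.hp0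
    have hA : (q : ℤ) ∣ (P.a ^ P.p) ^ 2 := by
      rw [show (P.a ^ P.p) ^ 2 = (P.a ^ P.p) ^ 2 + P.a ^ P.p * P.b ^ P.p + (P.b ^ P.p) ^ 2
        - (P.a ^ P.p + P.b ^ P.p) * P.b ^ P.p by ring]
      exact h4.sub (hC.mul_right _)
    exact hq'.not_isUnit ((isCoprime_a_c P).isUnit_of_dvd'
      (hq'.dvd_of_dvd_pow (hq'.dvd_of_dvd_pow hA)) hc)

theorem isSemistableModel : P.freyCurveInt.IsSemistableModel :=
  fun _ hq h => prime_not_dvd_c₄ P hq (prime_dvd_abc_of_dvd_Δ P hq h)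

end Fermat.Agent.Endgame
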