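import Fermat.Agent.Endgame.Final
import Fermat.Agent.BadPrime.Mazur.Assembly
import Fermat.Agent.RT.FreyMinimal
import Fermat.Agent.Lifting.Minimal.Defs
import Fermat.Agent.EC.Det.Cyclotomic
import Fermat.Agent.EC.Mult.Ramification
import Fermat.Agent.EichlerShimura.Inputs
import Fermat.Agent.S29

/-!
# Level lowering for the Frey curve from Mazur's principle at even levels and the patching output

The minimal levels of the Frey representation are even, so Mazur's principle is needed only at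
even levels: there its local inputs exist also at `q = 3`.  An odd `q ≠ p` left in a minimal level
is `≡ 1 (mod p)`, which the twisted patching argument excludes.
-/

set_option autoImplicit false

noncomputable section

open WeierstrassCurve.Affine.Point (GaloisRepIsIrreducible)

namespace Fermat.Agent.Endgame

/-- The local inputs of Mazur's principle needed by the Frey curve: `q` odd, `p ≥ 5`, even level. -/
def FreyMazurInputs : Prop :=
  ∀ (q p M : ℕ) [NeZero M] [NeZero (M * q)], q.Prime → q ≠ 2 → p.Prime → 5 ≤ p → q ≠ p →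
    ¬ q ∣ M → 2 ∣ M → BadPrime.Mazur.LocalInputs q p M

/-- Mazur's principle for the Frey curve at an even level. -/
theorem mazurPrinciple_even (hI : FreyMazurInputs) (P : FreyPackage) {N q : ℕ}
    (hcond : P.IsConductorLevel N) (h2N : 2 ∣ N) (hq : q.Prime) (hq2 : q ≠ 2) (hqp : q ≠ P.p)
    (hqN : q ∣ N) (hq1 : (q : ZMod P.p) ≠ 1)
    (hirr : GaloisRepIsIrreducible (K := AlgebraicClosure ℚ) ℚ P.freyCurve P.p)
    (hmod : P.freyCurveInt.IsResiduallyModularOfLevel P.p N)
    (hunr : P.GaloisRepUnramifiedAt q) :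
    ∃ M : ℕ, M ∣ N ∧ ¬ q ∣ M ∧ P.freyCurveInt.IsResiduallyModularOfLevel P.p M := by
  have : Fact P.p.Prime := ⟨P.pp⟩
  obtain ⟨M, rfl⟩ : ∃ M, N = M * q := ⟨N / q, (Nat.div_mul_cancel hqN).symm⟩
  have hqM : ¬ q ∣ M := fun h => hq.ne_one (Nat.isUnit_iff.1
    (hcond.squarefree q (Nat.mul_dvd_mul_right h q)))
  have : NeZero (M * q) := ⟨hcond.pos.ne'⟩
  have : NeZero M := ⟨left_ne_zero_of_mul hcond.pos.ne'⟩
  have h2M : 2 ∣ M := (Nat.prime_two.dvd_mul.1 h2N).resolve_right fun h =>
    hq2 ((Nat.prime_dvd_prime_iff_eq Nat.prime_two hq).1 h).symm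
  have : (P.freyCurveInt.map (Int.castRingHom ℚ)).IsElliptic :=
    EC.isElliptic_map_rat (freyCurveInt_Δ_ne_zero P)
  refine ⟨M, dvd_mul_right M q, hqM, BadPrime.Mazur.isResiduallyModularOfLevel_of_inputs
    (fun N _ => EichlerShimura.kummerIso_modular N)
    (fun N _ p _ => EichlerShimura.frobeniusOnTorsion_modular N p)
    (by have := P.hp5; omega) (freyCurveInt_Δ_ne_zero P)
    (EC.natCard_torsion_rat _ P.pp.ne_zero)
    (EC.galoisRepModuleEnd_factorsThroughFiniteLevel _ P.pp.ne_zero)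
    (RT.frey_modRepIsIrreducible P hirr) hq hqp (hI q P.p M hq hq2 P.pp P.hp5 hqp hqM h2M) hq1
    ?_ hmod⟩
  rw [FreyPackage.GaloisRepUnramifiedAt, ← freyCurveInt_map P] at hunr
  intro A hA σ hσ
  exact LinearMap.ext fun x => hunr A hA σ hσ x

/-- A minimal level of the Frey representation has no odd prime other than `p`. -/
theorem not_dvd_freyMinimalLevel (hI : FreyMazurInputs)
    (hTW : Lifting.Minimal.NoMinimalTWLevel) (P : FreyPackage) {M : ℕ}
    (hirr : GaloisRepIsIrreducible (K := AlgebraicClosure ℚ) ℚ P.freyCurve P.p)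
    (hM : RT.IsMinimalLevel P M) {q : ℕ} (hq : q.Prime) (hq2 : q ≠ 2) (hqp : q ≠ P.p) :
    ¬ q ∣ M := by
  have : Fact P.p.Prime := ⟨P.pp⟩
  have h2M : 2 ∣ M := hM.two_dvd (fun hg _ hp _ _ _ φ => S29.result hg hp φ) hirr
  have hone : ∀ r : ℕ, r.Prime → r ∣ M → r ≠ 2 → r ≠ P.p → (r : ZMod P.p) = 1 := by
    intro r hr hrM hr2 hrp
    by_contra h1
    obtain ⟨M', hd, hr', hm⟩ := mazurPrinciple_even hI P hM.cond h2M hr hr2 hrp hrM h1 hirr
      hM.modular (S05.result P hr hr2 hrp)
    exact hr' (hM.minimal M' hd hm ▸ hrM)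
  have hunr : ∀ {r : ℕ}, r.Prime → r ≠ 2 → r ≠ P.p →
      Lifting.ResiduallyUnramifiedAt P.freyCurveInt P.p r := fun {r} hr hr2 hrp => by
    have h := S05.result P hr hr2 hrp
    rw [FreyPackage.GaloisRepUnramifiedAt, ← freyCurveInt_map P] at h
    exact h
  have hram : ¬ Lifting.ResiduallyUnramifiedAt P.freyCurveInt P.p 2 := by
    intro hu
    obtain ⟨A, hA⟩ := Galois.exists_valuationSubring_liesOverPrime (L := AlgebraicClosure ℚ)
      Nat.prime_two
    obtain ⟨σ, hσ, x, hx⟩ := EC.Mult.exists_inertia_moving Nat.prime_two hA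
      (freyCurveInt_Δ_ne_zero P) (two_dvd_Δ P) (isSemistableModel P 2 Nat.prime_two (two_dvd_Δ P))
      P.pp (by have := P.hp5; omega) (RT.not_dvd_padicValInt_two_Δ (P := P))
    exact hx (hu A hA σ hσ x)
  have hmin : Lifting.Minimal.IsMinimalResidualLevel P.freyCurveInt P.p M :=
    { pos := hM.cond.pos
      squarefree := hM.cond.squarefree
      mult_of_dvd := fun h => (prime_dvd_Δ_iff P P.pp).2 (hM.cond.support _ P.pp h)
      residual := hM.modular
      minimal := hM.minimal }
  intro hqM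
  refine hTW P.p P.pp (by have := P.hp5; omega) P.freyCurveInt (freyCurveInt_Δ_ne_zero P)
    (isSemistableModel P) (RT.frey_modRepIsIrreducible P hirr)
    M hmin (fun r hr hrM hrp hru => Or.inl ?_)
    q hq hqM hqp (hunr hq hq2 hqp) (hone q hq hqM hq2 hqp)
  exact hone r hr hrM (fun h => hram (h ▸ hru)) hrp

/-- S43. -/
theorem freyLevelLowering_of (hI : FreyMazurInputs) (hTW : Lifting.Minimal.NoMinimalTWLevel) :
    FreyLevelLowering := by
  intro P N q hcond hq hq2 hqp _ hirr hmod _
  have hS29 : RT.EigenformResidualRep := fun hg _ hp _ _ _ φ => S29.result hg hp φ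
  obtain ⟨M, hMN, hM⟩ := RT.exists_minimalLevel P hcond
    (RT.freyCurveInt_isResiduallyModular P hS29 RT.torsionFrobeniusCharpoly hcond.pos hmod)
  exact ⟨M, hMN, not_dvd_freyMinimalLevel hI hTW P hirr hM hq hq2 hqp,
    RT.modularRepOfLevel_of_freyCurveInt P hM.modular⟩

end Fermat.Agent.Endgame
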