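import Fermat.Agent.Endgame.FreyLowering
import Fermat.Agent.BadPrime.Mazur.Local.Main

/-!
# The local inputs of Mazur's principle for the Frey curve
-/

set_option autoImplicit false

noncomputable section

namespace Fermat.Agent.Endgame

/-- At even levels the local inputs exist at every odd `q`, for every `p ≥ 5`. -/
theorem freyMazurInputs : FreyMazurInputs := fun q p M _ _ hq hq2 hp hp5 hqp hqM h2M =>
  haveI : Fact q.Prime := ⟨hq⟩
  BadPrime.Mazur.Local.localInputs hp hp5 (Ne.symm hqp)
    ⟨fun h => absurd h hq2, fun _ => h2M⟩ hqM

end Fermat.Agent.Endgame
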