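import Fermat.Agent.Endgame.Wiring
import Fermat.Agent.S05
import Fermat.Agent.S07
import Fermat.Agent.S08
import Fermat.Agent.S51

/-!
# Final wiring from the squarefree-level modularity inputs

The route through the 2-adic switch: residual modularity at `3` at a squarefree level (prime to `3`
for good reduction at `3`) of curves multiplicative at `2`, lifting at such levels, and a 3–5
switch keeping multiplicative reduction at `2` and good reduction at `5` give exact conductor-level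
modularity of every semistable curve multiplicative at `2`, in particular of the Frey curve, hence
S04, S06 and, with level lowering (S43, S44) and irreducibility (S09), S45, S03 and S01.
-/

set_option autoImplicit false

open WeierstrassCurve WeierstrassCurve.Affine WeierstrassCurve.Affine.Point
open CuspForm

namespace Fermat.Agent.Endgame

/-- Residual modularity at `3` at a squarefree level, prime to `3` for good reduction at `3`, of
semistable curves multiplicative at `2`. -/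
def SquarefreeModularAtThree : Prop :=
  ∀ W : WeierstrassCurve ℤ, W.Δ ≠ 0 → W.IsSemistableModel → (2 : ℤ) ∣ W.Δ →
    W.ModRepIsIrreducible 3 →
    ∃ M : ℕ, 0 < M ∧ Squarefree M ∧ W.IsResiduallyModularOfLevel 3 M ∧
      (W.IsGoodPrimeFor 3 → ¬ 3 ∣ M)

/-- Modularity lifting at `p ∈ {3, 5}` from a squarefree level, prime to `p` for good reduction
at `p`. -/
def SquarefreeLifting : Prop :=
  ∀ (p : ℕ), p = 3 ∨ p = 5 → ∀ W : WeierstrassCurve ℤ, W.Δ ≠ 0 →
    W.IsSemistableModel → W.ModRepIsIrreducible p →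
    ∀ (M₀ : ℕ) [NeZero M₀], W.IsResiduallyModularOfLevel p M₀ → Squarefree M₀ →
      (W.IsGoodPrimeFor p → ¬ p ∣ M₀) →
      Mlc1IsModularModelOfExactConductorLevel W

/-- The 3–5 switch keeping multiplicative reduction at `2` and good reduction at `5`. -/
def SwitchKeepingGoodAtFive : Prop :=
  ∀ W : WeierstrassCurve ℤ, W.Δ ≠ 0 → W.IsSemistableModel → (2 : ℤ) ∣ W.Δ →
    W.ModRepIsIrreducible 5 →
    ∃ W' : WeierstrassCurve ℤ, W'.Δ ≠ 0 ∧ W'.IsSemistableModel ∧ (2 : ℤ) ∣ W'.Δ ∧
      W'.ModRepIsIrreducible 3 ∧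
      (W.IsGoodPrimeFor 5 → W'.IsGoodPrimeFor 5) ∧
      ∀ ℓ : ℕ, ℓ.Prime → W.IsGoodPrimeFor ℓ → W'.IsGoodPrimeFor ℓ → ℓ ≠ 5 →
        (5 : ℤ) ∣ (W'.apOfModel ℓ - W.apOfModel ℓ)

/-- The congruent curve of exact conductor level gives residual modularity at a squarefree level
supported at its bad primes. -/
theorem isResiduallyModular_squarefree_of_congr {p : ℕ} (hp : p.Prime)
    {W W' : WeierstrassCurve ℤ} (hgood : W.IsGoodPrimeFor p → W'.IsGoodPrimeFor p)
    (hW' : Mlc1IsModularModelOfExactConductorLevel W')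
    (hcong : ∀ ℓ : ℕ, ℓ.Prime → W.IsGoodPrimeFor ℓ → W'.IsGoodPrimeFor ℓ → ℓ ≠ p →
      (p : ℤ) ∣ (W'.apOfModel ℓ - W.apOfModel ℓ)) :
    ∃ M : ℕ, 0 < M ∧ Squarefree M ∧ W.IsResiduallyModularOfLevel p M ∧
      (W.IsGoodPrimeFor p → ¬ p ∣ M) := by
  obtain ⟨N, hN, hsq, hsupp, f, hf, hap⟩ := hW'
  obtain ⟨𝔪, hmax, hpm⟩ := FLTPrelim.exists_maximalIdeal_natCast_prime_mem hp
  refine ⟨N, hN, hsq, ⟨f, 𝔪, hf, hmax, hpm, fun ℓ hℓ hg hℓN hℓp => ?_⟩,
    fun h hd => hgood h ((hsupp p hp).1 hd)⟩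
  have hg' : W'.IsGoodPrimeFor ℓ := fun hd => hℓN ((hsupp ℓ hℓ).2 hd)
  refine ⟨((W'.apOfModel ℓ : ℤ) : integralClosure ℤ ℂ), ?_, ?_⟩
  · rw [hap ℓ hℓ hg' hℓN]
    simp
  · obtain ⟨k, hk⟩ := hcong ℓ hℓ hg hg' hℓp
    rw [← Int.cast_sub, hk, Int.cast_mul, Int.cast_natCast]
    exact 𝔪.mul_mem_right _ hpm

/-- Exact conductor-level modularity of semistable curves multiplicative at `2`. -/
theorem exactConductorLevel_of_squarefree (h3 : SquarefreeModularAtThree)
    (hlift : SquarefreeLifting) (hswitch : SwitchKeepingGoodAtFive)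
    (W : WeierstrassCurve ℤ) (hΔ : W.Δ ≠ 0) (hW : W.IsSemistableModel) (h2 : (2 : ℤ) ∣ W.Δ) :
    Mlc1IsModularModelOfExactConductorLevel W := by
  have at3 : ∀ V : WeierstrassCurve ℤ, V.Δ ≠ 0 → V.IsSemistableModel → (2 : ℤ) ∣ V.Δ →
      V.ModRepIsIrreducible 3 →
      Mlc1IsModularModelOfExactConductorLevel V := fun V hVΔ hV hV2 hV3 => by
    obtain ⟨M, hM, hsq, hres, hgood⟩ := h3 V hVΔ hV hV2 hV3
    have : NeZero M := ⟨hM.ne'⟩
    exact hlift 3 (Or.inl rfl) V hVΔ hV hV3 M hres hsq hgood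
  rcases Fermat.Agent.S51.result W hΔ hW with h | h5
  · exact at3 W hΔ hW h2 h
  · obtain ⟨W', hΔ', hW', h2', h3', hgood, hcong⟩ := hswitch W hΔ hW h2 h5
    obtain ⟨M, hM, hsq, hres, hgM⟩ := isResiduallyModular_squarefree_of_congr (p := 5)
      Nat.prime_five hgood (at3 W' hΔ' hW' h2' h3') hcong
    have : NeZero M := ⟨hM.ne'⟩
    exact hlift 5 (Or.inr rfl) W hΔ hW h5 M hres hsq hgM

/-- S04. -/
theorem frey_isModular_of_squarefree (h3 : SquarefreeModularAtThree)
    (hlift : SquarefreeLifting) (hswitch : SwitchKeepingGoodAtFive) (P : FreyPackage) :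
    P.freyCurve.IsModular := by
  rw [← freyCurveInt_map P]
  exact isModular_of_exactConductorLevel (exactConductorLevel_of_squarefree h3 hlift hswitch _
    (freyCurveInt_Δ_ne_zero P) (isSemistableModel P) (two_dvd_Δ P))

/-- S06. -/
theorem modularRep_of_squarefree (h3 : SquarefreeModularAtThree)
    (hlift : SquarefreeLifting) (hswitch : SwitchKeepingGoodAtFive) (P : FreyPackage) :
    ∃ N : ℕ, P.IsConductorLevel N ∧ P.ModularRepOfLevel N :=
  modularRep_of_frey P (exactConductorLevel_of_squarefree h3 hlift hswitch _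
    (freyCurveInt_Δ_ne_zero P) (isSemistableModel P) (two_dvd_Δ P))

/-- The statement of S43, as a proposition. -/
def FreyLevelLowering : Prop :=
  ∀ (P : FreyPackage) {N q : ℕ}, P.IsConductorLevel N → q.Prime → q ≠ 2 → q ≠ P.p →
    q ∣ N → GaloisRepIsIrreducible (K := AlgebraicClosure ℚ) ℚ P.freyCurve P.p →
    P.ModularRepOfLevel N → P.GaloisRepUnramifiedAt q →
    ∃ M : ℕ, M ∣ N ∧ ¬ q ∣ M ∧ P.ModularRepOfLevel M

/-- The statement of S44, as a proposition. -/
def FreyLevelLoweringAtP : Prop :=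
  ∀ (P : FreyPackage) {N : ℕ}, P.IsConductorLevel N → P.p ∣ N →
    GaloisRepIsIrreducible (K := AlgebraicClosure ℚ) ℚ P.freyCurve P.p →
    P.ModularRepOfLevel N → ∃ M : ℕ, M ∣ N ∧ ¬ P.p ∣ M ∧ P.ModularRepOfLevel M

/-- The statement of S09, as a proposition. -/
def FreyIrreducible : Prop :=
  ∀ P : FreyPackage, GaloisRepIsIrreducible (K := AlgebraicClosure ℚ) ℚ P.freyCurve P.p

/-- S45. -/
theorem level_two_of_squarefree (h3 : SquarefreeModularAtThree)
    (hlift : SquarefreeLifting) (hswitch : SwitchKeepingGoodAtFive)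
    (h43 : FreyLevelLowering) (h44 : FreyLevelLoweringAtP) (P : FreyPackage)
    (hirr : GaloisRepIsIrreducible (K := AlgebraicClosure ℚ) ℚ P.freyCurve P.p) :
    ∃ f : CuspForm (CongruenceSubgroup.Gamma0 2) 2, f ≠ 0 :=
  level_two_of (fun P {q} hq hq2 hqp => Fermat.Agent.S05.result P hq hq2 hqp)
    (modularRep_of_squarefree h3 hlift hswitch) Fermat.Agent.S08.result h43 h44 P hirr

/-- S03. -/
theorem no_freyPackage_of_squarefree (h3 : SquarefreeModularAtThree)
    (hlift : SquarefreeLifting) (hswitch : SwitchKeepingGoodAtFive)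
    (h43 : FreyLevelLowering) (h44 : FreyLevelLoweringAtP) (h09 : FreyIrreducible)
    (P : FreyPackage) : False :=
  no_freyPackage_of (fun P _ hirr => level_two_of_squarefree h3 hlift hswitch h43 h44 P hirr)
    Fermat.Agent.S07.result (frey_isModular_of_squarefree h3 hlift hswitch) h09 P

/-- S01. -/
theorem fermat_of_squarefree (h3 : SquarefreeModularAtThree)
    (hlift : SquarefreeLifting) (hswitch : SwitchKeepingGoodAtFive)
    (h43 : FreyLevelLowering) (h44 : FreyLevelLoweringAtP) (h09 : FreyIrreducible)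
    (n : ℕ) (hn : 3 ≤ n) (a b c : ℕ) (ha : 0 < a) (hb : 0 < b) (hc : 0 < c) :
    a ^ n + b ^ n ≠ c ^ n :=
  fermat_of_no_freyPackage (no_freyPackage_of_squarefree h3 hlift hswitch h43 h44 h09)
    n hn a b c ha hb hc

end Fermat.Agent.Endgame
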