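import Fermat.Agent.Endgame.SquareRoute
import Fermat.Agent.Endgame.FreyLowering
import Fermat.Agent.Endgame.MazurInputs
import Fermat.Agent.Lifting.Squarefree.Base
import Fermat.Agent.Lifting.Squarefree.FiveIrreducible
import Fermat.Agent.Lifting.Squarefree.MazurLocal
import Fermat.Agent.Lifting.Squarefree.OrdinaryTp
import Fermat.Agent.Lifting.Squarefree.TresPrime
import Fermat.Agent.Lifting.Raise.Final
import Fermat.Agent.LevelP.Ordinary.Datum
import Fermat.Agent.RT.Assembly.Externals
import Fermat.Agent.RT.Assembly.NoTWLevel
import Fermat.Agent.Switch.Adjusted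
import Fermat.Agent.TwoAdic.AtTwo.SystemPoints
import Fermat.Agent.TwoAdic.Count.Main
import Fermat.Agent.TwoAdic.Dihedral.Bound
import Fermat.Agent.TwoAdic.Final
import Fermat.Agent.TwoAdic.Points.Curve
import Fermat.Agent.TwoAdic.Removal.Main
import Fermat.Agent.TwoAdic.Selmer.AuxExist
import Fermat.Agent.TwoAdic.Switch.Contract
import Fermat.Agent.TwoAdic.Switch.Galois.Places
import Fermat.Agent.S09
import Fermat.Agent.S29
import Fermat.Agent.S44

/-!
# The chain to S01

Every link that is proved is discharged here; the hypotheses of `fermat_of_raise` are exactly the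
inputs still to be supplied.
-/

set_option autoImplicit false

noncomputable section

namespace Fermat.Agent.Endgame

/-- The residual representations of eigenforms. -/
theorem eigenformResidualRep : RT.EigenformResidualRep :=
  fun hg _ hp _ _ _ φ => S29.result hg hp φ

/-- The twisted patching argument. -/
theorem noMinimalTWLevel : Lifting.Minimal.NoMinimalTWLevel :=
  RT.Assembly.noMinimalTWLevel_of_inputs eigenformResidualRep BadPrime.newformMultRep_modular
    (fun p _ _ => RT.Assembly.localInputs_of p)
    (fun _ _ hp2 => LevelP.strictOrdinaryOfNewform hp2)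

/-- Level lowering for the Frey curve. -/
theorem freyLevelLowering : FreyLevelLowering :=
  freyLevelLowering_of freyMazurInputs noMinimalTWLevel

/-- Residual modularity at `3`. -/
theorem squarefreeModularAtThree : SquarefreeModularAtThree :=
  TwoAdic.squarefreeModularAtThree_of_props TwoAdic.switchExists TwoAdic.residualIrreducible
    TwoAdic.placesExist TwoAdic.auxPrimesExist TwoAdic.dihedralBound TwoAdic.newSystemCount
    TwoAdic.systemPoints TwoAdic.curvePoint TwoAdic.Removal.limitModular

/-- S01 from the producers of the raising argument. -/
theorem fermat_of_raise (hmodels : Lifting.Raise.RaiseModelsExist)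
    (hsys : Lifting.Raise.RaiseSystemsExist)
    (n : ℕ) (hn : 3 ≤ n) (a b c : ℕ) (ha : 0 < a) (hb : 0 < b) (hc : 0 < c) :
    a ^ n + b ^ n ≠ c ^ n :=
  fermat_of_square
    { atThree := squarefreeModularAtThree
      switch := Switch.adjustedSwitch
      five := Lifting.fiveIrreducibleOfSquare
      base := Lifting.raisingBaseExists eigenformResidualRep Lifting.mazurLowering
        noMinimalTWLevel Lifting.tresPrimeInLevel Lifting.ordinaryTpFive
      lift := Lifting.Raise.liftFromRaisingBase_of_models eigenformResidualRep
        BadPrime.newformMultRep_modular hmodels hsys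
      multRep := BadPrime.newformMultRep_modular }
    freyLevelLowering
    (fun P {_} hcond hp hirr hmod => S44.result P hcond hp hirr hmod)
    (fun P => S09.result P) n hn a b c ha hb hc

end Fermat.Agent.Endgame
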