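import Fermat.Prelude.Def_FLTPrelim_FreyPackage
import Mathlib.RingTheory.Int.Basic
import Mathlib.Algebra.Order.Ring.Int
import Mathlib.Tactic.LinearCombination

/-!
# From a counterexample to a Frey package
-/

set_option autoImplicit false

namespace Fermat.Agent.Endgame

theorem exists_freyPackage_aux {a b c : ℤ} {p : ℕ} (pp : p.Prime) (hp5 : 5 ≤ p)
    (ha : a ≠ 0) (hb : b ≠ 0) (hc : c ≠ 0) (H : a ^ p + b ^ p = c ^ p)
    (hco : IsCoprime a b) (hb2 : (2 : ℤ) ∣ b) : Nonempty FreyPackage := by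
  have hodd : Odd p := pp.odd_of_ne_two (by omega)
  have hgcd : ∀ x y : ℤ, IsCoprime x y → gcd x y = 1 := fun x y h => by
    rw [← normalize_gcd x y, normalize_eq_one]
    exact (gcd_isUnit_iff x y).2 h
  have ha2 : ¬ (2 : ℤ) ∣ a := fun h =>
    Int.prime_two.not_isUnit (hco.isUnit_of_dvd' h hb2)
  have hb0 : (b : ZMod 2) = 0 := (ZMod.intCast_zmod_eq_zero_iff_dvd b 2).2 hb2
  rcases (show a % 4 = 1 ∨ a % 4 = 3 by omega) with h1 | h3
  · refine ⟨⟨-a, -b, -c, neg_ne_zero.2 ha, neg_ne_zero.2 hb, neg_ne_zero.2 hc, p, pp, hp5, ?_,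
      hgcd _ _ hco.neg_neg, ?_, ?_⟩⟩
    · rw [hodd.neg_pow, hodd.neg_pow, hodd.neg_pow, ← neg_add, H]
    · have h : (((-a - 3 : ℤ)) : ZMod 4) = 0 :=
        (ZMod.intCast_zmod_eq_zero_iff_dvd _ 4).2 (by omega)
      push_cast at h ⊢
      linear_combination h
    · push_cast
      rw [hb0, neg_zero]
  · refine ⟨⟨a, b, c, ha, hb, hc, p, pp, hp5, H, hgcd _ _ hco, ?_, hb0⟩⟩
    have h : (((a - 3 : ℤ)) : ZMod 4) = 0 :=
      (ZMod.intCast_zmod_eq_zero_iff_dvd _ 4).2 (by omega)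
    push_cast at h
    linear_combination h

theorem exists_freyPackage_of_isCoprime {a b c : ℤ} {p : ℕ} (pp : p.Prime) (hp5 : 5 ≤ p)
    (ha : a ≠ 0) (hb : b ≠ 0) (hc : c ≠ 0) (H : a ^ p + b ^ p = c ^ p)
    (hco : IsCoprime a b) : Nonempty FreyPackage := by
  have hodd : Odd p := pp.odd_of_ne_two (by omega)
  by_cases hb2 : (2 : ℤ) ∣ b
  · exact exists_freyPackage_aux pp hp5 ha hb hc H hco hb2
  by_cases ha2 : (2 : ℤ) ∣ a
  · exact exists_freyPackage_aux pp hp5 hb ha hc (by rw [add_comm, H]) hco.symm ha2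
  have hc2 : (2 : ℤ) ∣ c := by
    have h1 : ∀ x : ℤ, ¬ (2 : ℤ) ∣ x → Odd (x ^ p) := fun x hx =>
      (Int.not_even_iff_odd.1 fun h => hx h.two_dvd).pow
    have h2 : Even (c ^ p) := H ▸ (h1 a ha2).add_odd (h1 b hb2)
    exact (Int.even_pow.1 h2).1.two_dvd
  have hac : IsCoprime a c := by
    refine (gcd_isUnit_iff a c).1 ?_
    rw [← FreyPackage.gcdab_eq_gcdac pp.pos H]
    exact (gcd_isUnit_iff a b).2 hco
  refine exists_freyPackage_aux (a := a) (b := -c) (c := -b) pp hp5 ha (neg_ne_zero.2 hc)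
    (neg_ne_zero.2 hb) ?_ hac.neg_right (dvd_neg.2 hc2)
  rw [hodd.neg_pow, hodd.neg_pow]
  linear_combination H

theorem exists_freyPackage (a b c : ℤ) (ha : a ≠ 0) (hb : b ≠ 0) (hc : c ≠ 0) (p : ℕ)
    (pp : p.Prime) (hp5 : 5 ≤ p) (H : a ^ p + b ^ p = c ^ p) : Nonempty FreyPackage := by
  obtain ⟨a', b', hco, ha', hb'⟩ :
      ∃ a' b' : ℤ, IsCoprime a' b' ∧ a = a' * Int.gcd a b ∧ b = b' * Int.gcd a b := by
    obtain ⟨a', b', hg, h1, h2⟩ := Int.exists_gcd_one (m := a) (n := b)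
      (Int.gcd_pos_of_ne_zero_left b ha)
    exact ⟨a', b', Int.isCoprime_iff_gcd_eq_one.2 hg, h1, h2⟩
  have hg0 : ((Int.gcd a b : ℕ) : ℤ) ≠ 0 := by
    exact_mod_cast (Int.gcd_pos_of_ne_zero_left b ha).ne'
  generalize hg : ((Int.gcd a b : ℕ) : ℤ) = g at ha' hb' hg0
  subst ha' hb'
  obtain ⟨c', rfl⟩ : g ∣ c := by
    refine (Int.pow_dvd_pow_iff pp.ne_zero).1 ⟨a' ^ p + b' ^ p, ?_⟩
    rw [← H]
    ring
  refine exists_freyPackage_of_isCoprime pp hp5 (left_ne_zero_of_mul ha) (left_ne_zero_of_mul hb)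
    (right_ne_zero_of_mul hc) (mul_right_cancel₀ (pow_ne_zero p hg0) ?_) hco
  rw [add_mul, ← mul_pow, ← mul_pow, ← mul_pow, H, mul_comm g c']

end Fermat.Agent.Endgame
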