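import Fermat.Agent.Endgame.Chain
import Fermat.Agent.Lifting.Raise.ModelsExist
import Fermat.Agent.Lifting.Raise.SystemsExist

/-!
# The square route with all inputs proved

Used by S03, S04, S06 and S45.
-/

set_option autoImplicit false

noncomputable section

namespace Fermat.Agent.Endgame

/-- All inputs of the modularity of the Frey curve on the square route. -/
theorem squareRouteInputs_proved : SquareRouteInputs where
  atThree := squarefreeModularAtThree
  switch := Switch.adjustedSwitch
  five := Lifting.fiveIrreducibleOfSquare
  base := Lifting.raisingBaseExists eigenformResidualRep Lifting.mazurLowering noMinimalTWLevel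
    Lifting.tresPrimeInLevel Lifting.ordinaryTpFive
  lift := Lifting.Raise.liftFromRaisingBase_of_models eigenformResidualRep
    BadPrime.newformMultRep_modular Lifting.Raise.raiseModelsExist
    Lifting.Raise.raiseSystemsExist
  multRep := BadPrime.newformMultRep_modular

/-- The lowering at `p` for the Frey curve. -/
theorem freyLevelLoweringAtP_proved : FreyLevelLoweringAtP :=
  fun P {_} hcond hp hirr hmod => S44.result P hcond hp hirr hmod

end Fermat.Agent.Endgame
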