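import Fermat.Agent.Endgame.Final
import Fermat.Agent.Lifting.Squarefree.Main

/-!
# Final wiring through the lifting at squarefree levels

The Frey curve has square discriminant and multiplicative reduction at `2`, so it is modular at
its exact conductor level by the route `W → W' → 5`; level lowering and irreducibility then give
S45, S03 and S01.
-/

set_option autoImplicit false

open WeierstrassCurve WeierstrassCurve.Affine WeierstrassCurve.Affine.Point
open CuspForm

namespace Fermat.Agent.Endgame

/-- The discriminant of the Frey model is a square. -/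
theorem isSquare_freyCurveInt_Δ (P : FreyPackage) : IsSquare P.freyCurveInt.Δ := by
  obtain ⟨m, hm⟩ : (16 : ℤ) ∣ (P.a * P.b * P.c) ^ P.p := by
    have h := (pow_dvd_pow_of_dvd P.two_dvd_abc 4).trans
      (pow_dvd_pow (P.a * P.b * P.c) (show 4 ≤ P.p by have := P.hp5; omega))
    norm_num at h
    exact h
  refine ⟨m, mul_right_cancel₀ (b := (2 : ℤ) ^ 8) (by norm_num) ?_⟩
  rw [freyCurveInt_Δ, pow_mul', hm]
  ring

/-- The inputs of the modularity of the Frey curve on the route through the adjusted switch. -/
structure SquareRouteInputs : Prop where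
  atThree : SquarefreeModularAtThree
  switch : Lifting.AdjustedSwitch
  five : Lifting.FiveIrreducibleOfSquare
  base : Lifting.RaisingBaseExists
  lift : Lifting.LiftFromRaisingBase
  multRep : BadPrime.NewformMultRep

variable (h : SquareRouteInputs)
include h

/-- Exact conductor-level modularity of the Frey curve. -/
theorem frey_exactConductorLevel_of_square (P : FreyPackage) :
    Mlc1IsModularModelOfExactConductorLevel P.freyCurveInt :=
  Lifting.exactConductorLevel_of_square h.atThree h.switch h.five h.base h.lift h.multRep
    (freyCurveInt_Δ_ne_zero P) (isSemistableModel P) (two_dvd_Δ P) (isSquare_freyCurveInt_Δ P)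

/-- S04. -/
theorem frey_isModular_of_square (P : FreyPackage) : P.freyCurve.IsModular := by
  rw [← freyCurveInt_map P]
  exact isModular_of_exactConductorLevel (frey_exactConductorLevel_of_square h P)

/-- S06. -/
theorem modularRep_of_square (P : FreyPackage) : ∃ N : ℕ, P.IsConductorLevel N ∧ P.ModularRepOfLevel N :=
  modularRep_of_frey P (frey_exactConductorLevel_of_square h P)

/-- S45. -/
theorem level_two_of_square (P : FreyPackage) (h43 : FreyLevelLowering) (h44 : FreyLevelLoweringAtP)
    (hirr : GaloisRepIsIrreducible (K := AlgebraicClosure ℚ) ℚ P.freyCurve P.p) :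
    ∃ f : CuspForm (CongruenceSubgroup.Gamma0 2) 2, f ≠ 0 :=
  level_two_of (fun P {q} hq hq2 hqp => Fermat.Agent.S05.result P hq hq2 hqp)
    (fun P => modularRep_of_square h P) Fermat.Agent.S08.result h43 h44 P hirr

/-- S03. -/
theorem no_freyPackage_of_square (P : FreyPackage) (h43 : FreyLevelLowering) (h44 : FreyLevelLoweringAtP)
    (h09 : FreyIrreducible) : False :=
  no_freyPackage_of (fun P _ hirr => level_two_of_square h P h43 h44 hirr)
    Fermat.Agent.S07.result (fun P => frey_isModular_of_square h P) h09 P

/-- S01. -/
theorem fermat_of_square (h43 : FreyLevelLowering) (h44 : FreyLevelLoweringAtP)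
    (h09 : FreyIrreducible) (n : ℕ) (hn : 3 ≤ n) (a b c : ℕ) (ha : 0 < a) (hb : 0 < b)
    (hc : 0 < c) : a ^ n + b ^ n ≠ c ^ n :=
  fermat_of_no_freyPackage (fun P => no_freyPackage_of_square h P h43 h44 h09) n hn a b c ha hb hc

end Fermat.Agent.Endgame
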