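import Fermat.Prelude.Def_FLTPrelim_CofixedLine
import Fermat.Prelude.Def_FLTPrelim_ModularRep
import Fermat.Prelude.Def_FLTPrelim_Ramification
import Fermat.Prelude.Def_FreyPackage_GaloisRep
import Fermat.Prelude.Def_FreyPackage_IsConductorLevel
import Fermat.Prelude.Def_WeierstrassCurve_Mlc1RowStatement
import Fermat.Agent.Endgame.FreyCurve
import Fermat.Agent.Endgame.FreyPackageExists
import Mathlib.NumberTheory.FLT.Four
import Mathlib.NumberTheory.FLT.Three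

/-!
# Endgame wiring

Conditional reductions between the milestone statements. Every missing input is an explicit
hypothesis, stated verbatim as the corresponding milestone.
-/

set_option autoImplicit false

open WeierstrassCurve WeierstrassCurve.Affine WeierstrassCurve.Affine.Point
open CuspForm

namespace Fermat.Agent.Endgame

/-- S01 from S03. -/
theorem fermat_of_no_freyPackage (hS03 : ∀ _P : FreyPackage, False) (n : ℕ) (hn : 3 ≤ n)
    (a b c : ℕ) (ha : 0 < a) (hb : 0 < b) (hc : 0 < c) : a ^ n + b ^ n ≠ c ^ n := by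
  have hFLT : FermatLastTheorem := FermatLastTheorem.of_odd_primes fun p hp hodd => by
    rcases (show p = 3 ∨ 5 ≤ p by have := hp.two_le; obtain ⟨k, hk⟩ := hodd; omega) with rfl | h5
    · exact fermatLastTheoremThree
    · rw [fermatLastTheoremFor_iff_int]
      intro x y z hx hy hz H
      obtain ⟨P⟩ := exists_freyPackage x y z hx hy hz p hp h5 H
      exact hS03 P
  exact hFLT n hn a b c ha.ne' hb.ne' hc.ne'

/-- S03 from S45, S07, S04 and S09. -/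
theorem no_freyPackage_of
    (hS45 : ∀ P : FreyPackage, P.freyCurve.IsModular →
      GaloisRepIsIrreducible (K := AlgebraicClosure ℚ) ℚ P.freyCurve P.p →
      ∃ f : CuspForm (CongruenceSubgroup.Gamma0 2) 2, f ≠ 0)
    (hS07 : ∀ f : CuspForm (CongruenceSubgroup.Gamma0 2) 2, f = 0)
    (hS04 : ∀ P : FreyPackage, P.freyCurve.IsModular)
    (hS09 : ∀ P : FreyPackage,
      GaloisRepIsIrreducible (K := AlgebraicClosure ℚ) ℚ P.freyCurve P.p)
    (P : FreyPackage) : False := by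
  obtain ⟨f, hf⟩ := hS45 P (hS04 P) (hS09 P)
  exact hf (hS07 f)

/-- S04 from S60. -/
theorem frey_isModular_of
    (hS60 : ∀ W : WeierstrassCurve ℤ, W.Δ ≠ 0 → W.IsSemistableModel →
      (W.map (Int.castRingHom ℚ)).IsModular)
    (P : FreyPackage) : P.freyCurve.IsModular := by
  rw [← freyCurveInt_map P]
  exact hS60 _ (freyCurveInt_Δ_ne_zero P) (isSemistableModel P)

/-- S09 from S10, S11, S12 and S13. -/
theorem frey_irreducible_of
    (hS10 : ∀ P : FreyPackage, P.p = 5 ∨ P.p = 7 ∨ P.p = 13 →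
      ¬ HasGaloisStableCofixedLine (K := AlgebraicClosure ℚ) ℚ P.freyCurve P.p)
    (hS11 : ∀ P : FreyPackage, P.p = 11 →
      ¬ HasGaloisStableCofixedLine (K := AlgebraicClosure ℚ) ℚ P.freyCurve P.p)
    (hS12 : ∀ P : FreyPackage, 17 ≤ P.p →
      ¬ HasGaloisStableCofixedLine (K := AlgebraicClosure ℚ) ℚ P.freyCurve P.p)
    (hS13 : ∀ P : FreyPackage,
      ¬ GaloisRepIsIrreducible (K := AlgebraicClosure ℚ) ℚ P.freyCurve P.p →
      HasGaloisStableCofixedLine (K := AlgebraicClosure ℚ) ℚ P.freyCurve P.p)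
    (P : FreyPackage) : GaloisRepIsIrreducible (K := AlgebraicClosure ℚ) ℚ P.freyCurve P.p := by
  by_contra hred
  have hC := hS13 P hred
  rcases Nat.lt_or_ge P.p 17 with h17 | h17
  · have h5 := P.hp5
    have hcases : (P.p = 5 ∨ P.p = 7 ∨ P.p = 13) ∨ P.p = 11 := by
      have hpp := P.pp
      generalize P.p = p at *
      interval_cases p <;> revert hpp <;> norm_num
    rcases hcases with h | h
    · exact hS10 P h hC
    · exact hS11 P h hC
  · exact hS12 P h17 hC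

theorem isModular_of_exactConductorLevel {W : WeierstrassCurve ℤ}
    (h : Mlc1IsModularModelOfExactConductorLevel W) :
    (W.map (Int.castRingHom ℚ)).IsModular := by
  obtain ⟨N, hN, -, -, hmod⟩ := h
  exact ⟨W, ⟨1, one_smul _ _⟩, N, hN, hmod⟩

/-- A curve whose `a_ℓ` agree mod `p` with those of a curve of exact conductor level is residually
modular at `p` of a squarefree level. -/
theorem isResiduallyModular_of_congr {p : ℕ} (hp : p.Prime) {W W' : WeierstrassCurve ℤ}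
    (hW' : Mlc1IsModularModelOfExactConductorLevel W')
    (hcong : ∀ ℓ : ℕ, ℓ.Prime → W.IsGoodPrimeFor ℓ → W'.IsGoodPrimeFor ℓ → ℓ ≠ p →
      (p : ℤ) ∣ (W'.apOfModel ℓ - W.apOfModel ℓ)) :
    ∃ M : ℕ, 0 < M ∧ Squarefree M ∧ W.IsResiduallyModularOfLevel p M := by
  obtain ⟨N, hN, hsq, hsupp, f, hf, hap⟩ := hW'
  obtain ⟨𝔪, hmax, hpm⟩ := FLTPrelim.exists_maximalIdeal_natCast_prime_mem hp
  refine ⟨N, hN, hsq, f, 𝔪, hf, hmax, hpm, fun ℓ hℓ hgood hℓN hℓp => ?_⟩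
  have hgood' : W'.IsGoodPrimeFor ℓ := fun hd => hℓN ((hsupp ℓ hℓ).2 hd)
  refine ⟨((W'.apOfModel ℓ : ℤ) : integralClosure ℤ ℂ), ?_, ?_⟩
  · rw [hap ℓ hℓ hgood' hℓN]
    simp
  · obtain ⟨k, hk⟩ := hcong ℓ hℓ hgood hgood' hℓp
    rw [← Int.cast_sub, hk, Int.cast_mul, Int.cast_natCast]
    exact 𝔪.mul_mem_right _ hpm

/-- Residual modularity at `3` in the shape consumed by the lifting theorem. -/
def ReadyToLiftAtThree : Prop :=
  ∀ W : WeierstrassCurve ℤ, W.Δ ≠ 0 → W.IsSemistableModel → W.ModRepIsIrreducible 3 →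
    ∃ M : ℕ, 0 < M ∧ W.IsResiduallyModularOfLevel 3 M ∧ ¬ 3 ^ 2 ∣ M ∧
      ∀ q : ℕ, q.Prime → q ≠ 3 → ¬ q ^ 3 ∣ M

/-- The extra input needed between S50 and S59: when `9` divides the level produced by S50,
the level can be lowered to one not divisible by `9`. -/
def LevelStripAtThree : Prop :=
  ∀ (W : WeierstrassCurve ℤ) (M : ℕ), W.Δ ≠ 0 → W.IsSemistableModel → W.ModRepIsIrreducible 3 →
    0 < M → W.IsResiduallyModularOfLevel 3 M → 3 ^ 2 ∣ M →
    (∀ q : ℕ, q.Prime → q ≠ 3 → ¬ q ^ 3 ∣ M) →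
    (∀ A : ValuationSubring (AlgebraicClosure ℚ), A.LiesOverPrime 3 →
      ∀ x : Submodule.torsionBy ℤ
          ((W.map (Int.castRingHom ℚ))⁄(AlgebraicClosure ℚ)).Point (3 : ℕ),
        (∀ σ ∈ A.inertiaSubgroupIn ℚ, σ • x = x) → x = 0) →
    ∃ M₀ : ℕ, 0 < M₀ ∧ W.IsResiduallyModularOfLevel 3 M₀ ∧ ¬ 3 ^ 2 ∣ M₀ ∧
      ∀ q : ℕ, q.Prime → q ≠ 3 → ¬ q ^ 3 ∣ M₀

/-- `ReadyToLiftAtThree` from S50 and the strip at `3`. -/
theorem readyToLiftAtThree_of
    (hS50 : ∀ W : WeierstrassCurve ℤ, W.Δ ≠ 0 → W.IsSemistableModel → W.ModRepIsIrreducible 3 →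
      ∃ M : ℕ, 0 < M ∧ W.IsResiduallyModularOfLevel 3 M ∧
        (∀ q : ℕ, q.Prime → q ≠ 3 → ¬ q ^ 3 ∣ M) ∧
        (3 ^ 2 ∣ M →
          ∀ A : ValuationSubring (AlgebraicClosure ℚ), A.LiesOverPrime 3 →
            ∀ x : Submodule.torsionBy ℤ
                ((W.map (Int.castRingHom ℚ))⁄(AlgebraicClosure ℚ)).Point (3 : ℕ),
              (∀ σ ∈ A.inertiaSubgroupIn ℚ, σ • x = x) → x = 0))
    (hStrip : LevelStripAtThree) : ReadyToLiftAtThree := by
  intro W hΔ hW h3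
  obtain ⟨M, hM, hres, hcube, hfix⟩ := hS50 W hΔ hW h3
  by_cases h9 : 3 ^ 2 ∣ M
  · exact hStrip W M hΔ hW h3 hM hres h9 hcube (hfix h9)
  · exact ⟨M, hM, hres, h9, hcube⟩

/-- Exact conductor-level modularity of semistable curves from S51, S52, S59 and residual
modularity at `3`. -/
theorem exactConductorLevel_of
    (h3res : ReadyToLiftAtThree)
    (hS51 : ∀ W : WeierstrassCurve ℤ, W.Δ ≠ 0 → W.IsSemistableModel →
      W.ModRepIsIrreducible 3 ∨ W.ModRepIsIrreducible 5)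
    (hS52 : ∀ W : WeierstrassCurve ℤ, W.Δ ≠ 0 → W.IsSemistableModel → W.ModRepIsIrreducible 5 →
      ∃ W' : WeierstrassCurve ℤ, W'.Δ ≠ 0 ∧ W'.IsSemistableModel ∧ W'.ModRepIsIrreducible 3 ∧
        ∀ ℓ : ℕ, ℓ.Prime → W.IsGoodPrimeFor ℓ → W'.IsGoodPrimeFor ℓ → ℓ ≠ 5 →
          (5 : ℤ) ∣ (W'.apOfModel ℓ - W.apOfModel ℓ))
    (hS59 : ∀ (p : ℕ), p = 3 ∨ p = 5 → ∀ (W : WeierstrassCurve ℤ), W.Δ ≠ 0 →
      W.IsSemistableModel → W.ModRepIsIrreducible p →
      ∀ (M₀ : ℕ) [NeZero M₀], W.IsResiduallyModularOfLevel p M₀ → ¬ p ^ 2 ∣ M₀ →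
      (∀ q : ℕ, q.Prime → q ≠ p → ¬ q ^ 3 ∣ M₀) →
      Mlc1IsModularModelOfExactConductorLevel W)
    (W : WeierstrassCurve ℤ) (hΔ : W.Δ ≠ 0) (hW : W.IsSemistableModel) :
    Mlc1IsModularModelOfExactConductorLevel W := by
  have at3 : ∀ V : WeierstrassCurve ℤ, V.Δ ≠ 0 → V.IsSemistableModel → V.ModRepIsIrreducible 3 →
      Mlc1IsModularModelOfExactConductorLevel V := fun V hVΔ hV h3 => by
    obtain ⟨M, hM, hres, h9, hcube⟩ := h3res V hVΔ hV h3
    have : NeZero M := ⟨hM.ne'⟩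
    exact hS59 3 (Or.inl rfl) V hVΔ hV h3 M hres h9 hcube
  rcases hS51 W hΔ hW with h3 | h5
  · exact at3 W hΔ hW h3
  · obtain ⟨W', hΔ', hW', h3', hcong⟩ := hS52 W hΔ hW h5
    obtain ⟨M, hM, hsq, hres⟩ :=
      isResiduallyModular_of_congr (p := 5) Nat.prime_five (at3 W' hΔ' hW' h3') hcong
    have : NeZero M := ⟨hM.ne'⟩
    have hsq' : ∀ q : ℕ, q.Prime → ¬ q ^ 2 ∣ M := fun q hq hd =>
      Nat.squarefree_iff_prime_squarefree.1 hsq q hq (by rwa [← pow_two])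
    exact hS59 5 (Or.inr rfl) W hΔ hW h5 M hres (hsq' 5 Nat.prime_five) fun q hq _ hd =>
      hsq' q hq ((pow_dvd_pow q (by norm_num)).trans hd)

/-- S60 from S50, S51, S52, S59 and the strip at `3`. -/
theorem modularity_of
    (hS50 : ∀ W : WeierstrassCurve ℤ, W.Δ ≠ 0 → W.IsSemistableModel → W.ModRepIsIrreducible 3 →
      ∃ M : ℕ, 0 < M ∧ W.IsResiduallyModularOfLevel 3 M ∧
        (∀ q : ℕ, q.Prime → q ≠ 3 → ¬ q ^ 3 ∣ M) ∧
        (3 ^ 2 ∣ M →
          ∀ A : ValuationSubring (AlgebraicClosure ℚ), A.LiesOverPrime 3 →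
            ∀ x : Submodule.torsionBy ℤ
                ((W.map (Int.castRingHom ℚ))⁄(AlgebraicClosure ℚ)).Point (3 : ℕ),
              (∀ σ ∈ A.inertiaSubgroupIn ℚ, σ • x = x) → x = 0))
    (hStrip : LevelStripAtThree)
    (hS51 : ∀ W : WeierstrassCurve ℤ, W.Δ ≠ 0 → W.IsSemistableModel →
      W.ModRepIsIrreducible 3 ∨ W.ModRepIsIrreducible 5)
    (hS52 : ∀ W : WeierstrassCurve ℤ, W.Δ ≠ 0 → W.IsSemistableModel → W.ModRepIsIrreducible 5 →
      ∃ W' : WeierstrassCurve ℤ, W'.Δ ≠ 0 ∧ W'.IsSemistableModel ∧ W'.ModRepIsIrreducible 3 ∧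
        ∀ ℓ : ℕ, ℓ.Prime → W.IsGoodPrimeFor ℓ → W'.IsGoodPrimeFor ℓ → ℓ ≠ 5 →
          (5 : ℤ) ∣ (W'.apOfModel ℓ - W.apOfModel ℓ))
    (hS59 : ∀ (p : ℕ), p = 3 ∨ p = 5 → ∀ (W : WeierstrassCurve ℤ), W.Δ ≠ 0 →
      W.IsSemistableModel → W.ModRepIsIrreducible p →
      ∀ (M₀ : ℕ) [NeZero M₀], W.IsResiduallyModularOfLevel p M₀ → ¬ p ^ 2 ∣ M₀ →
      (∀ q : ℕ, q.Prime → q ≠ p → ¬ q ^ 3 ∣ M₀) →
      Mlc1IsModularModelOfExactConductorLevel W)
    (W : WeierstrassCurve ℤ) (hΔ : W.Δ ≠ 0) (hW : W.IsSemistableModel) :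
    (W.map (Int.castRingHom ℚ)).IsModular :=
  isModular_of_exactConductorLevel
    (exactConductorLevel_of (readyToLiftAtThree_of hS50 hStrip) hS51 hS52 hS59 W hΔ hW)

/-- S06 for one package from exact conductor-level modularity of its Frey curve. -/
theorem modularRep_of_frey (P : FreyPackage)
    (h : Mlc1IsModularModelOfExactConductorLevel P.freyCurveInt) :
    ∃ N : ℕ, P.IsConductorLevel N ∧ P.ModularRepOfLevel N := by
  obtain ⟨N, hN, hsq, hsupp, f, hf, hap⟩ := h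
  obtain ⟨𝔪, hmax, hpm⟩ := FLTPrelim.exists_maximalIdeal_natCast_prime_mem P.pp
  refine ⟨N, ⟨hN, hsq, fun q hq hqN => prime_dvd_abc_of_dvd_Δ P hq ((hsupp q hq).1 hqN)⟩,
    f, P.freyCurveInt, 𝔪, hf, isIntegralModelOf_freyCurve P, hmax, hpm,
    fun ℓ hℓ hgood hℓN _ => ⟨((P.freyCurveInt.apOfModel ℓ : ℤ) : integralClosure ℤ ℂ), ?_, ?_⟩⟩
  · rw [hap ℓ hℓ hgood hℓN]
    simp
  · rw [sub_self]
    exact 𝔪.zero_mem

/-- S06 from exact conductor-level modularity of semistable curves. -/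
theorem modularRep_of_conductorLevel
    (hmod : ∀ W : WeierstrassCurve ℤ, W.Δ ≠ 0 → W.IsSemistableModel →
      Mlc1IsModularModelOfExactConductorLevel W)
    (P : FreyPackage) : ∃ N : ℕ, P.IsConductorLevel N ∧ P.ModularRepOfLevel N :=
  modularRep_of_frey P (hmod _ (freyCurveInt_Δ_ne_zero P) (isSemistableModel P))

/-- S45 from S05, S06, S08, S43 and S44. -/
theorem level_two_of
    (hS05 : ∀ (P : FreyPackage) {q : ℕ}, q.Prime → q ≠ 2 → q ≠ P.p → P.GaloisRepUnramifiedAt q)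
    (hS06 : ∀ P : FreyPackage, ∃ N : ℕ, P.IsConductorLevel N ∧ P.ModularRepOfLevel N)
    (hS08 : ∀ f : CuspForm (CongruenceSubgroup.Gamma0 1) 2, f = 0)
    (hS43 : ∀ (P : FreyPackage) {N q : ℕ}, P.IsConductorLevel N → q.Prime → q ≠ 2 → q ≠ P.p →
      q ∣ N → GaloisRepIsIrreducible (K := AlgebraicClosure ℚ) ℚ P.freyCurve P.p →
      P.ModularRepOfLevel N → P.GaloisRepUnramifiedAt q →
      ∃ M : ℕ, M ∣ N ∧ ¬ q ∣ M ∧ P.ModularRepOfLevel M)
    (hS44 : ∀ (P : FreyPackage) {N : ℕ}, P.IsConductorLevel N → P.p ∣ N →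
      GaloisRepIsIrreducible (K := AlgebraicClosure ℚ) ℚ P.freyCurve P.p →
      P.ModularRepOfLevel N → ∃ M : ℕ, M ∣ N ∧ ¬ P.p ∣ M ∧ P.ModularRepOfLevel M)
    (P : FreyPackage)
    (hirr : GaloisRepIsIrreducible (K := AlgebraicClosure ℚ) ℚ P.freyCurve P.p) :
    ∃ f : CuspForm (CongruenceSubgroup.Gamma0 2) 2, f ≠ 0 := by
  obtain ⟨N₀, hcond₀, hrep₀⟩ := hS06 P
  have key : ∀ N : ℕ, P.IsConductorLevel N → P.ModularRepOfLevel N →
      ∃ M : ℕ, M ∣ 2 ∧ P.ModularRepOfLevel M := by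
    intro N
    induction N using Nat.strong_induction_on with
    | _ N ih =>
      intro hcond hrep
      by_cases hex : ∃ q : ℕ, q.Prime ∧ q ≠ 2 ∧ q ∣ N
      · obtain ⟨q, hq, hq2, hqN⟩ := hex
        have down : ∀ M : ℕ, M ∣ N → ¬ q ∣ M → P.ModularRepOfLevel M →
            ∃ M' : ℕ, M' ∣ 2 ∧ P.ModularRepOfLevel M' := fun M hMN hqM hrepM =>
          ih M (lt_of_le_of_ne (Nat.le_of_dvd hcond.pos hMN) fun he => hqM (he ▸ hqN))
            (hcond.of_dvd hMN (Nat.pos_of_dvd_of_pos hMN hcond.pos)) hrepM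
        rcases eq_or_ne q P.p with rfl | hqp
        · obtain ⟨M, hMN, hqM, hrepM⟩ := hS44 P hcond hqN hirr hrep
          exact down M hMN hqM hrepM
        · obtain ⟨M, hMN, hqM, hrepM⟩ :=
            hS43 P hcond hq hq2 hqp hqN hirr hrep (hS05 P hq hq2 hqp)
          exact down M hMN hqM hrepM
      · refine ⟨N, ?_, hrep⟩
        rw [← Nat.prod_primeFactors_of_squarefree hcond.squarefree]
        have hsub : N.primeFactors ⊆ {2} := fun q hq => by
          have h := Nat.mem_primeFactors.1 hq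
          exact Finset.mem_singleton.2 (by_contra fun h2 => hex ⟨q, h.1, h2, h.2.1⟩)
        exact (Finset.prod_dvd_prod_of_subset _ _ (fun q : ℕ => q) hsub).trans (by simp)
  obtain ⟨M, hM2, f, -, -, hf, -⟩ := key N₀ hcond₀ hrep₀
  rcases (Nat.dvd_prime Nat.prime_two).1 hM2 with rfl | rfl
  · exact absurd (hS08 f) hf.ne_zero
  · exact ⟨f, hf.ne_zero⟩

end Fermat.Agent.Endgame
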